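/-
S25 (Jacobian) — package F2 support, interface-free (Mathlib + Prelude only).  helper1291.

Scheme-side criterion for `IsAlgEquivZero` / `FibrewiseAlgEquivZero`:
to show that the fibre of a rigidified line bundle `M` on `C_T` at a geometric point
`s : Spec K ⟶ T` is algebraically equivalent to zero, it suffices to give a connecting family
`N` on `C ×_R T'` where `T'` is a `K`-scheme VIEWED OVER THE BASE `R` (via `h ≫ s ≫ t`), together
with two `K`-points `t₀ t₁` of `T'` such that `N` restricts to the unit at `t₀` and to the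
base change of `M.L` at `t₁`.  All pullback pasting is done here once.
-/
import Mathlib
import Fermat.Prelude.Def_AlgebraicGeometry_RelPicardAlgEquivZeroCut

set_option autoImplicit false

universe u

open CategoryTheory CategoryTheory.Limits AlgebraicGeometry AlgebraicGeometry.RelPicard
  NeronModelInfra

namespace Fermat.Agent.S25.ALGEQ

noncomputable section

variable {R : Type u} [CommRing R] {C : Scheme.{u}} (c : C ⟶ Spec (CommRingCat.of R))

/-- Pasting map `(C ×_R T) ×_T S ⟶ C ×_R S`. -/
def pasteMap {T S : Scheme.{u}} (t : T ⟶ Spec (CommRingCat.of R)) (s : S ⟶ T) :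
    pullback (pullback.snd c t) s ⟶ pullback c (s ≫ t) :=
  pullback.lift (pullback.fst _ _ ≫ pullback.fst _ _) (pullback.snd _ _)
    (by rw [Category.assoc, pullback.condition, ← Category.assoc, pullback.condition,
      Category.assoc])

@[reassoc]
theorem pasteMap_snd {T S : Scheme.{u}} (t : T ⟶ Spec (CommRingCat.of R)) (s : S ⟶ T) :
    pasteMap c t s ≫ pullback.snd c (s ≫ t) = pullback.snd (pullback.snd c t) s := by
  simp only [pasteMap, pullback.lift_snd]

@[reassoc]
theorem pasteMap_fst {T S : Scheme.{u}} (t : T ⟶ Spec (CommRingCat.of R)) (s : S ⟶ T) :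
    pasteMap c t s ≫ pullback.fst c (s ≫ t) =
      pullback.fst (pullback.snd c t) s ≫ pullback.fst c t := by
  simp only [pasteMap, pullback.lift_fst]

/-- The structure map `s` as a morphism over the base. -/
def overOfComp {T S : Scheme.{u}} (t : T ⟶ Spec (CommRingCat.of R)) (s : S ⟶ T) :
    SchemeHomOver (s ≫ t) t := ⟨s, rfl⟩

theorem pasteMap_baseChangeSnd {T S : Scheme.{u}} (t : T ⟶ Spec (CommRingCat.of R)) (s : S ⟶ T) :
    pasteMap c t s ≫ baseChangeSnd c (overOfComp t s) = pullback.fst (pullback.snd c t) s := by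
  apply pullback.hom_ext
  · simp only [baseChangeSnd, overOfComp, Category.assoc, pullback.lift_fst, Category.comp_id,
      pasteMap_fst]
  · simp only [baseChangeSnd, overOfComp, Category.assoc, pullback.lift_snd, pasteMap_snd_assoc,
      pullback.condition]

/-- A section of `h` as a morphism over the base `R`. -/
def sectionOver {K : Type u} [Field K] (κ : Spec (CommRingCat.of K) ⟶ Spec (CommRingCat.of R))
    {T' : Scheme.{u}} (h : T' ⟶ Spec (CommRingCat.of K))
    (tt : SchemeHomOver (𝟙 (Spec (CommRingCat.of K))) h) : SchemeHomOver κ (h ≫ κ) :=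
  ⟨tt.1, by rw [← Category.assoc, tt.2, Category.id_comp]⟩

/-- **Criterion for `IsAlgEquivZero`** on `C ×_R Spec K`: a family `N` on `C ×_R T'`
(`T'` a `K`-scheme, viewed over `R`) whose restrictions at two `K`-points are the unit and `L`. -/
theorem isAlgEquivZero_of_family {K : Type u} [Field K]
    (κ : Spec (CommRingCat.of K) ⟶ Spec (CommRingCat.of R)) (L : (pullback c κ).Modules)
    {T' : Scheme.{u}} (h : T' ⟶ Spec (CommRingCat.of K))
    (hft : LocallyOfFiniteType h) (hgi : GeometricallyIntegral h)
    (N : (pullback c (h ≫ κ)).Modules) (hN : Scheme.Modules.IsInvertible N)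
    (t₀ t₁ : SchemeHomOver (𝟙 (Spec (CommRingCat.of K))) h)
    (e₀ : Nonempty ((Scheme.Modules.pullback (baseChangeSnd c (sectionOver κ h t₀))).obj N ≅
      SheafOfModules.unit (pullback c κ).ringCatSheaf))
    (e₁ : Nonempty ((Scheme.Modules.pullback (baseChangeSnd c (sectionOver κ h t₁))).obj N ≅ L)) :
    IsAlgEquivZero (pullback.snd c κ) L := by
  obtain ⟨e₀⟩ := e₀
  obtain ⟨e₁⟩ := e₁
  have hsq : ∀ tt : SchemeHomOver (𝟙 (Spec (CommRingCat.of K))) h,
      baseChangeSnd (pullback.snd c κ) tt ≫ pasteMap c κ h =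
        pullback.fst (pullback.snd c κ) (𝟙 _) ≫ baseChangeSnd c (sectionOver κ h tt) := by
    intro tt
    apply pullback.hom_ext
    · simp only [baseChangeSnd, sectionOver, Category.assoc, pullback.lift_fst, Category.comp_id,
        pasteMap_fst, pullback.lift_fst_assoc]
    · simp only [baseChangeSnd, sectionOver, Category.assoc, pullback.lift_snd, pasteMap_snd]
      rw [← Category.assoc, pullback.condition, Category.assoc, Category.id_comp]
  refine ⟨T', h, hft, hgi, (Scheme.Modules.pullback (pasteMap c κ h)).obj N,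
    hN.pullback _, t₀, t₁, ⟨?_⟩, ⟨?_⟩⟩
  · exact (Scheme.Modules.pullbackComp _ _).app N ≪≫
      (Scheme.Modules.pullbackCongr (hsq t₀)).app N ≪≫
      ((Scheme.Modules.pullbackComp _ _).app N).symm ≪≫
      (Scheme.Modules.pullback _).mapIso e₀ ≪≫
      Scheme.Modules.pullbackUnitIso _
  · exact (Scheme.Modules.pullbackComp _ _).app N ≪≫
      (Scheme.Modules.pullbackCongr (hsq t₁)).app N ≪≫
      ((Scheme.Modules.pullbackComp _ _).app N).symm ≪≫
      (Scheme.Modules.pullback _).mapIso e₁

/-- The fibre of `M` at `s`, transported to `C ×_R Spec K`, is the pullback of `M` along `s`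
viewed over the base.  Hence `IsAlgEquivZero` may be checked on `(M.pullbackAlong s).L`. -/
theorem isAlgEquivZero_fibre_of_pullbackAlong {ε : SchemeHomOver (𝟙 (Spec (CommRingCat.of R))) c}
    {T : Scheme.{u}} {t : T ⟶ Spec (CommRingCat.of R)} (M : RigidifiedLineBundle c ε t)
    {K : Type u} [Field K] (s : Spec (CommRingCat.of K) ⟶ T)
    (H : IsAlgEquivZero (pullback.snd c (s ≫ t)) (M.pullbackAlong (overOfComp t s)).L) :
    IsAlgEquivZero (fibreAt c t s)
      ((Scheme.Modules.pullback (pullback.fst (pullback.snd c t) s)).obj M.L) := by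
  have he : pasteMap c t s ≫ pullback.snd c (s ≫ t) = fibreAt c t s := by
    simp only [fibreAt, pasteMap_snd]
  refine IsAlgEquivZero.of_iso ?_ (H.pullback (pasteMap c t s) he)
  exact (Scheme.Modules.pullbackComp _ _).app M.L ≪≫
    (Scheme.Modules.pullbackCongr (pasteMap_baseChangeSnd c t s)).app M.L

theorem isAlgEquivZero_pullbackAlong_of_eq {ε : SchemeHomOver (𝟙 (Spec (CommRingCat.of R))) c}
    {T : Scheme.{u}} {t : T ⟶ Spec (CommRingCat.of R)} (M : RigidifiedLineBundle c ε t)
    {K : Type u} [Field K] (s : Spec (CommRingCat.of K) ⟶ T)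
    (κ : Spec (CommRingCat.of K) ⟶ Spec (CommRingCat.of R)) (hs : s ≫ t = κ)
    (H : IsAlgEquivZero (pullback.snd c κ) (M.pullbackAlong (⟨s, hs⟩ : SchemeHomOver κ t)).L) :
    IsAlgEquivZero (pullback.snd c (s ≫ t)) (M.pullbackAlong (overOfComp t s)).L := by
  subst hs
  exact H

/-- **Criterion for `FibrewiseAlgEquivZero`** (sufficient condition, "degree 0 ⟹ AE0" side):
for every geometric point `s : Spec K ⟶ T` give a connecting family over a `K`-scheme `T'`
viewed over the base `R`. -/
theorem fibrewiseAlgEquivZero_of_families {ε : SchemeHomOver (𝟙 (Spec (CommRingCat.of R))) c}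
    {T : Scheme.{u}} {t : T ⟶ Spec (CommRingCat.of R)} (M : RigidifiedLineBundle c ε t)
    (H : ∀ (K : Type u) [Field K] [IsAlgClosed K] (s : Spec (CommRingCat.of K) ⟶ T),
      ∃ (T' : Scheme.{u}) (h : T' ⟶ Spec (CommRingCat.of K)) (_ : LocallyOfFiniteType h)
        (_ : GeometricallyIntegral h)
        (N : (pullback c (h ≫ s ≫ t)).Modules) (_ : Scheme.Modules.IsInvertible N)
        (t₀ t₁ : SchemeHomOver (𝟙 (Spec (CommRingCat.of K))) h),
        Nonempty ((Scheme.Modules.pullback (baseChangeSnd c (sectionOver (s ≫ t) h t₀))).obj N ≅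
          SheafOfModules.unit (pullback c (s ≫ t)).ringCatSheaf) ∧
        Nonempty ((Scheme.Modules.pullback (baseChangeSnd c (sectionOver (s ≫ t) h t₁))).obj N ≅
          (M.pullbackAlong (overOfComp t s)).L)) :
    FibrewiseAlgEquivZero M := by
  intro K _ _ s
  obtain ⟨T', h, hft, hgi, N, hN, t₀, t₁, e₀, e₁⟩ := H K s
  exact isAlgEquivZero_fibre_of_pullbackAlong c M s
    (isAlgEquivZero_of_family c (s ≫ t) _ h hft hgi N hN t₀ t₁ e₀ e₁)

/-- Variant of `isAlgEquivZero_of_family` where the structure map `τ` of `T'` over the base is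
given separately (`h ≫ κ = τ`), so that `N` may live on `pullback c τ` for a convenient `τ`. -/
theorem isAlgEquivZero_of_family' {K : Type u} [Field K]
    (κ : Spec (CommRingCat.of K) ⟶ Spec (CommRingCat.of R)) (L : (pullback c κ).Modules)
    {T' : Scheme.{u}} (h : T' ⟶ Spec (CommRingCat.of K))
    (hft : LocallyOfFiniteType h) (hgi : GeometricallyIntegral h)
    (τ : T' ⟶ Spec (CommRingCat.of R)) (hτ : h ≫ κ = τ)
    (N : (pullback c τ).Modules) (hN : Scheme.Modules.IsInvertible N)
    (t₀ t₁ : SchemeHomOver κ τ) (h₀ : t₀.1 ≫ h = 𝟙 _) (h₁ : t₁.1 ≫ h = 𝟙 _)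
    (e₀ : Nonempty ((Scheme.Modules.pullback (baseChangeSnd c t₀)).obj N ≅
      SheafOfModules.unit (pullback c κ).ringCatSheaf))
    (e₁ : Nonempty ((Scheme.Modules.pullback (baseChangeSnd c t₁)).obj N ≅ L)) :
    IsAlgEquivZero (pullback.snd c κ) L := by
  subst hτ
  exact isAlgEquivZero_of_family c κ L h hft hgi N hN ⟨t₀.1, h₀⟩ ⟨t₁.1, h₁⟩ e₀ e₁

section Algebra

variable {k : Type u} [Field k] {C' : Scheme.{u}} (c' : C' ⟶ Spec (CommRingCat.of k))

/-- A `k`-algebra map `φ : R →ₐ[k] R'`, as a morphism `Spec R' ⟶ Spec R` over `Spec k`. -/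
def algHomOver {k : Type u} [CommRing k] {R R' : Type u} [CommRing R] [CommRing R'] [Algebra k R]
    [Algebra k R'] (φ : R →ₐ[k] R') :
    SchemeHomOver (Spec.map (CommRingCat.ofHom (algebraMap k R')))
      (Spec.map (CommRingCat.ofHom (algebraMap k R))) :=
  ⟨Spec.map (CommRingCat.ofHom φ.toRingHom), by
    rw [← Spec.map_comp, ← CommRingCat.ofHom_comp]
    congr 2
    exact φ.comp_algebraMap⟩

/-- A `K`-point `p : B →ₐ[K] K` of `Spec B`, as a morphism over `Spec k`. -/
abbrev algPoint (k : Type u) [Field k] {K B : Type u} [Field K] [CommRing B] [Algebra k K]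
    [Algebra K B] [Algebra k B] [IsScalarTower k K B] (p : B →ₐ[K] K) :
    SchemeHomOver (Spec.map (CommRingCat.ofHom (algebraMap k K)))
      (Spec.map (CommRingCat.ofHom (algebraMap k B))) :=
  algHomOver (p.restrictScalars k)

/-- **Affine form of the criterion**: `K ⊇ k` a field, `B` a `K`-algebra of finite type with
`Spec B ⟶ Spec K` geometrically integral (automatic for a domain `B` when `K` is algebraically
closed), `N` an invertible module on `C ×_k Spec B`, and two `K`-points `p₀ p₁` of `B` at which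
`N` restricts to the unit, resp. to `L`.  Then `L` is algebraically equivalent to zero. -/
theorem isAlgEquivZero_of_algebra_family {K B : Type u} [Field K] [CommRing B] [Algebra k K]
    [Algebra K B] [Algebra k B] [IsScalarTower k K B] [Algebra.FiniteType K B]
    (hgi : GeometricallyIntegral (Spec.map (CommRingCat.ofHom (algebraMap K B))))
    (L : (pullback c' (Spec.map (CommRingCat.ofHom (algebraMap k K)))).Modules)
    (N : (pullback c' (Spec.map (CommRingCat.ofHom (algebraMap k B)))).Modules)
    (hN : Scheme.Modules.IsInvertible N) (p₀ p₁ : B →ₐ[K] K)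
    (e₀ : Nonempty ((Scheme.Modules.pullback (baseChangeSnd c' (algPoint k p₀))).obj N ≅
      SheafOfModules.unit (pullback c' (Spec.map (CommRingCat.ofHom (algebraMap k K)))).ringCatSheaf))
    (e₁ : Nonempty ((Scheme.Modules.pullback (baseChangeSnd c' (algPoint k p₁))).obj N ≅ L)) :
    IsAlgEquivZero (pullback.snd c' (Spec.map (CommRingCat.ofHom (algebraMap k K)))) L := by
  have hft : LocallyOfFiniteType (Spec.map (CommRingCat.ofHom (algebraMap K B))) := by
    rw [HasRingHomProperty.Spec_iff (P := @LocallyOfFiniteType)]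
    exact (RingHom.finiteType_algebraMap (A := K) (B := B)).mpr inferInstance
  have hτ : Spec.map (CommRingCat.ofHom (algebraMap K B)) ≫
      Spec.map (CommRingCat.ofHom (algebraMap k K)) =
      Spec.map (CommRingCat.ofHom (algebraMap k B)) := by
    rw [← Spec.map_comp, ← CommRingCat.ofHom_comp, ← IsScalarTower.algebraMap_eq]
  have hp : ∀ p : B →ₐ[K] K, (algPoint k p).1 ≫ Spec.map (CommRingCat.ofHom (algebraMap K B)) =
      𝟙 _ := by
    intro p
    simp only [algPoint, algHomOver]
    rw [← Spec.map_comp, ← CommRingCat.ofHom_comp]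
    have : ((p.restrictScalars k).toRingHom).comp (algebraMap K B) = RingHom.id K := by
      ext x
      simp
    rw [this]
    exact Spec.map_id _
  exact isAlgEquivZero_of_family' c' _ L _ hft hgi _ hτ N hN (algPoint k p₀) (algPoint k p₁)
    (hp p₀) (hp p₁) e₀ e₁

/-- **Fibrewise criterion, algebra form** (what package F2 has to feed): for every algebraically
closed field `K` (made a `k`-algebra by the geometric point `s`), give a `K`-algebra `B`, an
invertible module `N` on `C ×_k Spec B` and two `K`-points of `B`. -/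
theorem fibrewiseAlgEquivZero_of_algebra_families
    {ε : SchemeHomOver (𝟙 (Spec (CommRingCat.of k))) c'}
    {T : Scheme.{u}} {t : T ⟶ Spec (CommRingCat.of k)} (M : RigidifiedLineBundle c' ε t)
    (H : ∀ (K : Type u) [Field K] [IsAlgClosed K] [Algebra k K] (s : Spec (CommRingCat.of K) ⟶ T)
      (hs : s ≫ t = Spec.map (CommRingCat.ofHom (algebraMap k K))),
      ∃ (B : Type u) (_ : CommRing B) (_ : Algebra K B) (_ : Algebra k B)
        (_ : IsScalarTower k K B) (_ : Algebra.FiniteType K B)
        (_ : GeometricallyIntegral (Spec.map (CommRingCat.ofHom (algebraMap K B))))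
        (N : (pullback c' (Spec.map (CommRingCat.ofHom (algebraMap k B)))).Modules)
        (_ : Scheme.Modules.IsInvertible N) (p₀ p₁ : B →ₐ[K] K),
        Nonempty ((Scheme.Modules.pullback (baseChangeSnd c' (algPoint k p₀))).obj N ≅
          SheafOfModules.unit
            (pullback c' (Spec.map (CommRingCat.ofHom (algebraMap k K)))).ringCatSheaf) ∧
        Nonempty ((Scheme.Modules.pullback (baseChangeSnd c' (algPoint k p₁))).obj N ≅
          (M.pullbackAlong (⟨s, hs⟩ : SchemeHomOver _ t)).L)) :
    FibrewiseAlgEquivZero M := by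
  intro K _ _ s
  obtain ⟨φ, hφ⟩ := Spec.map_surjective (s ≫ t)
  algebraize [φ.hom]
  have hs : s ≫ t = Spec.map (CommRingCat.ofHom (algebraMap k K)) := hφ.symm
  obtain ⟨B, _, _, _, _, _, hgi, N, hN, p₀, p₁, e₀, e₁⟩ := H K s hs
  have key := isAlgEquivZero_of_algebra_family c' hgi _ N hN p₀ p₁ e₀ e₁
  exact isAlgEquivZero_fibre_of_pullbackAlong c' M s
    (isAlgEquivZero_pullbackAlong_of_eq c' M s _ hs key)

end Algebra

end

end Fermat.Agent.S25.ALGEQ
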