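/-
S25 package ALGEQ, direction `IsDeg0 ⇒ FibrewiseAlgEquivZero` (helper9550).

At a geometric point `s : Spec K ⟶ T` the fibre of `M` corresponds (through the dictionary) to a
glued module `L` over `𝒞.chart K` which is in `Pic⁰` (`isPic0_of_isDeg0`).  Package CONN gives a
connecting family over a finitely generated geometrically integral `K`-algebra `R`; the dictionary
turns it into an invertible module on `C ×ₖ Spec R` whose fibres at the two `K`-points are the unit
and the fibre of `M`.  The scheme-side pasting is `fibrewiseAlgEquivZero_of_algebra_families`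
(helper1291, file `AE0Criterion.lean`).
-/
import Fermat.Agent.S25.SchDefs
import Fermat.Agent.S25.AlgDefs
import Fermat.Agent.S25.BC
import Fermat.Agent.S25.CONN
import Fermat.Agent.S25.ALGEQ.AE0Criterion

set_option autoImplicit false

universe u

open CategoryTheory CategoryTheory.Limits AlgebraicGeometry AlgebraicGeometry.RelPicard
  NeronModelInfra GoodReductionJacobian

open scoped TensorProduct

namespace Fermat.Agent.S25.ALGEQ

noncomputable section

/-- `Spec R ⟶ Spec K` is geometrically integral as soon as `L ⊗[K] R` is a domain for every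
field extension `L / K` (in the same universe). -/
theorem geometricallyIntegral_of_geomDomain (K R : Type u) [Field K] [CommRing R] [Algebra K R]
    (h : ∀ (L : Type u) [Field L] [Algebra K L], IsDomain (L ⊗[K] R)) :
    GeometricallyIntegral (Spec.map (CommRingCat.ofHom (algebraMap K R))) := by
  rw [geometricallyIntegral_iff, geometrically_iff_of_commRing]
  intro L _ _ Y fst snd hP
  have hd : IsDomain (R ⊗[K] L) :=
    (Algebra.TensorProduct.comm K R L).toMulEquiv.isDomain (L ⊗[K] R)
  have : IsDomain (CommRingCat.of (R ⊗[K] L)) := hd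
  have : IsIntegral (pullback (Spec.map (CommRingCat.ofHom (algebraMap K R)))
      (Spec.map (CommRingCat.ofHom (algebraMap K L)))) :=
    IsIntegral.of_isIso (pullbackSpecIso K R L).inv
  exact IsIntegral.of_isIso hP.isoPullback.inv

variable {k : Type u} [Field k] {C : Scheme.{u}} {c : C ⟶ Spec (CommRingCat.of k)}
  {ε : SchemeHomOver (𝟙 (Spec (CommRingCat.of k))) c} {𝒞 : CurveData k}

/-- The glued module corresponding to a geometric fibre of a fibrewise degree-zero rigidified
line bundle is in `Pic⁰`. -/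
theorem isPic0_of_isDeg0 (𝒟 : Dictionary c ε 𝒞) {T : Scheme.{u}}
    (t : T ⟶ Spec (CommRingCat.of k)) (M : RigidifiedLineBundle c ε t) (hM : IsDeg0 𝒟 t M)
    (κ : Type u) [Field κ] [IsAlgClosed κ] [Algebra k κ] (s : SchemeHomOver (tR k κ) t)
    (L : GluedModule (𝒞.chart κ)) (hL : 𝒟.Corr κ (M.pullbackAlong s).L L) : IsPic0 𝒞 L := by
  refine ⟨𝒟.inv_right hL, (𝒟.rigid_iff hL).mp (M.pullbackAlong s).rigidified, ?_⟩
  intro κ' _ _ _ φ N' hN'
  have h1 := 𝒟.bc φ hL hN'
  refine hM κ' (postComp s (specHomOver k φ)) N' (𝒟.congr h1 ⟨?_⟩ ⟨GluedModule.Iso.refl _⟩)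
  exact (Scheme.Modules.pullbackComp _ _).app M.L ≪≫
    (Scheme.Modules.pullbackCongr (baseChangeSnd_comp c s (specHomOver k φ))).app M.L

/-- **Degree zero implies algebraically equivalent to zero** (fibrewise). -/
theorem fibrewiseAlgEquivZero_of_isDeg0 [IsAlgClosed k] (𝒟 : Dictionary c ε 𝒞) {T : Scheme.{u}}
    (t : T ⟶ Spec (CommRingCat.of k)) (M : RigidifiedLineBundle c ε t) (hM : IsDeg0 𝒟 t M) :
    FibrewiseAlgEquivZero M := by
  refine fibrewiseAlgEquivZero_of_algebra_families c M ?_
  intro K _ _ _ s hs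
  let s' : SchemeHomOver (tR k K) t := ⟨s, hs⟩
  obtain ⟨L, hL⟩ := 𝒟.exists_glued (M.pullbackAlong s').L (M.pullbackAlong s').isInvertible
  have hP : IsPic0 𝒞 L := isPic0_of_isDeg0 𝒟 t M hM K s' L hL
  obtain ⟨F⟩ := exists_connectingFamily 𝒞 K L hP
  let _ := F.commRing
  let _ := F.algebra
  let _ := F.algebraκ
  have := F.tower
  obtain ⟨N, hN⟩ := 𝒟.exists_module F.N F.lineBundle
  refine ⟨F.R, F.commRing, F.algebraκ, F.algebra, F.tower, F.finiteType,
    geometricallyIntegral_of_geomDomain K F.R F.geomDomain, N, 𝒟.inv_left hN, F.p₀, F.p₁, ?_, ?_⟩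
  · exact (𝒟.iso_iff (𝒟.bc _ hN F.fibre₀) (𝒟.unit K)).mpr ⟨GluedModule.Iso.refl _⟩
  · exact (𝒟.iso_iff (𝒟.bc _ hN F.fibre₁) hL).mpr ⟨GluedModule.Iso.refl _⟩

end

end Fermat.Agent.S25.ALGEQ
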