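/-
S25 package ALGEQ, direction `FibrewiseAlgEquivZero ⇒ IsDeg0` (helper5965).

The Euler characteristic of the fibres of an invertible module on `C ×ₖ T'` is the same at any two
geometric points of an integral `k`-scheme `T'`:
* on an affine open `U = Spec R` of `T'` it is constant by `chi_locallyConstant` (package DEG)
  because `Spec R` is irreducible;
* two nonempty affine opens of `T'` meet, and there is a geometric point over any point.
Everything is phrased through a `Dictionary`; no other scheme-side input.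
-/
import Fermat.Agent.S25.SchDefs
import Fermat.Agent.S25.AlgDefs
import Fermat.Agent.S25.BC
import Fermat.Agent.S25.DEG

set_option autoImplicit false

universe u

open CategoryTheory CategoryTheory.Limits AlgebraicGeometry AlgebraicGeometry.RelPicard
  NeronModelInfra GoodReductionJacobian

namespace Fermat.Agent.S25.ALGEQ

noncomputable section

/-! ### Pullback of modules along factorisations -/

/-- Pullback of sheaves of modules along two factorisations of the same morphism. -/
def pullbackObjIsoOfComp {X Y Y' Z : Scheme.{u}} {f : X ⟶ Y} {g : Y ⟶ Z} {f' : X ⟶ Y'}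
    {g' : Y' ⟶ Z} (h : f ≫ g = f' ≫ g') (M : Z.Modules) :
    (Scheme.Modules.pullback f).obj ((Scheme.Modules.pullback g).obj M) ≅
      (Scheme.Modules.pullback f').obj ((Scheme.Modules.pullback g').obj M) :=
  (Scheme.Modules.pullbackComp _ _).app M ≪≫ (Scheme.Modules.pullbackCongr h).app M ≪≫
    ((Scheme.Modules.pullbackComp _ _).app M).symm

/-- Pullback of sheaves of modules along a composite. -/
def pullbackObjIsoOfEq {X Y Z : Scheme.{u}} {f : X ⟶ Y} {g : Y ⟶ Z} {e : X ⟶ Z}
    (h : f ≫ g = e) (M : Z.Modules) :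
    (Scheme.Modules.pullback f).obj ((Scheme.Modules.pullback g).obj M) ≅
      (Scheme.Modules.pullback e).obj M :=
  (Scheme.Modules.pullbackComp _ _).app M ≪≫ (Scheme.Modules.pullbackCongr h).app M

/-! ### Constancy of `chi` over a connected affine base -/

section affine

variable {k : Type u} [Field k] [IsAlgClosed k] (𝒞 : CurveData k)

/-- Over a connected affine base the Euler characteristic of the geometric fibres of a family of
line bundles is constant. -/
theorem exists_chi_const {R : Type u} [CommRing R] [Algebra k R]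
    [PreconnectedSpace (PrimeSpectrum R)] (L : GluedModule (𝒞.chart R)) (hL : L.IsLineBundle) :
    ∃ n : ℤ, ∀ (κ : Type u) [Field κ] [IsAlgClosed κ] [Algebra k κ] (φ : R →ₐ[k] κ)
      (L' : GluedModule (𝒞.chart κ)), GluedModule.IsBC (𝒞.chartHom φ) L L' →
        GluedModule.chi L' = n := by
  obtain ⟨d, hd, hφ⟩ := chi_locallyConstant 𝒞 L hL
  by_cases hne : Nonempty (PrimeSpectrum R)
  · obtain ⟨p⟩ := hne
    refine ⟨d p, fun κ _ _ _ φ L' hL' => ?_⟩
    rw [hφ κ φ L' hL']
    exact hd.apply_eq_of_preconnectedSpace _ _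
  · refine ⟨0, fun κ _ _ _ φ L' hL' => ?_⟩
    exact absurd ⟨⟨RingHom.ker (φ : R →+* κ), RingHom.ker_isPrime _⟩⟩ hne

variable {𝒞} {C : Scheme.{u}} {c : C ⟶ Spec (CommRingCat.of k)}
  {ε : SchemeHomOver (𝟙 (Spec (CommRingCat.of k))) c}

/-- Scheme-side form of `exists_chi_const` through a dictionary. -/
theorem exists_chi_const_of_corr (𝒟 : Dictionary c ε 𝒞) {R : Type u} [CommRing R] [Algebra k R]
    [PreconnectedSpace (PrimeSpectrum R)] (M : (pullback c (tR k R)).Modules)
    (hM : Scheme.Modules.IsInvertible M) :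
    ∃ n : ℤ, ∀ (κ : Type u) [Field κ] [IsAlgClosed κ] [Algebra k κ] (φ : R →ₐ[k] κ)
      (L' : GluedModule (𝒞.chart κ)),
      𝒟.Corr κ ((Scheme.Modules.pullback (baseChangeSnd c (specHomOver k φ))).obj M) L' →
        GluedModule.chi L' = n := by
  obtain ⟨N, hN⟩ := 𝒟.exists_glued M hM
  obtain ⟨n, hn⟩ := exists_chi_const 𝒞 N (𝒟.inv_right hN)
  refine ⟨n, fun κ _ _ _ φ L' hL' => ?_⟩
  obtain ⟨N', hN'⟩ := exists_isBC 𝒞 φ N
  have h1 := 𝒟.bc φ hN hN'
  have h2 : Nonempty (N'.Iso L') := (𝒟.iso_iff h1 hL').mp ⟨Iso.refl _⟩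
  rw [← chi_congr 𝒞 N' L' h2]
  exact hn κ φ N' hN'

end affine

/-! ### Affine bases mapping to a `k`-scheme -/

section scheme

variable {k : Type u} [Field k]

/-- The `k`-algebra structure on `R` defined by a morphism `Spec R ⟶ Spec k`. -/
@[reducible] def algOfHom {R : Type u} [CommRing R]
    (q : Spec (CommRingCat.of R) ⟶ Spec (CommRingCat.of k)) : Algebra k R :=
  (Spec.preimage q).hom.toAlgebra

theorem tR_algOfHom {R : Type u} [CommRing R]
    (q : Spec (CommRingCat.of R) ⟶ Spec (CommRingCat.of k)) :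
    @tR k _ R _ (algOfHom q) = q := by
  exact Spec.map_preimage q

variable [IsAlgClosed k] {𝒞 : CurveData k} {C : Scheme.{u}} {c : C ⟶ Spec (CommRingCat.of k)}
  {ε : SchemeHomOver (𝟙 (Spec (CommRingCat.of k))) c}

/-- `chi` of the fibres of an invertible module on `C ×ₖ T'` is constant along the geometric
points of `T'` which factor through a given morphism `Spec R ⟶ T'`, `Spec R` connected. -/
theorem exists_chi_const_of_affine (𝒟 : Dictionary c ε 𝒞) {T' : Scheme.{u}}
    (t' : T' ⟶ Spec (CommRingCat.of k)) (N : (pullback c t').Modules)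
    (hN : Scheme.Modules.IsInvertible N) (R : Type u) [CommRing R]
    [PreconnectedSpace (PrimeSpectrum R)] (j : Spec (CommRingCat.of R) ⟶ T') :
    ∃ n : ℤ, ∀ (κ : Type u) [Field κ] [IsAlgClosed κ] [Algebra k κ]
      (z : SchemeHomOver (tR k κ) t') (ψ : Spec (CommRingCat.of κ) ⟶ Spec (CommRingCat.of R)),
      ψ ≫ j = z.1 → ∀ L' : GluedModule (𝒞.chart κ),
        𝒟.Corr κ ((Scheme.Modules.pullback (baseChangeSnd c z)).obj N) L' →
          GluedModule.chi L' = n := by
  let _ : Algebra k R := algOfHom (j ≫ t')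
  have hq : tR k R = j ≫ t' := tR_algOfHom _
  let j' : SchemeHomOver (tR k R) t' := ⟨j, hq.symm⟩
  obtain ⟨n, hn⟩ := exists_chi_const_of_corr 𝒟
    ((Scheme.Modules.pullback (baseChangeSnd c j')).obj N) (hN.pullback _)
  refine ⟨n, fun κ _ _ _ z ψ hψ L' hL' => ?_⟩
  have hcomm : ∀ a : k, (Spec.preimage ψ).hom (algebraMap k R a) = algebraMap k κ a := by
    have h1 : ψ ≫ tR k R = tR k κ := by rw [hq, ← Category.assoc, hψ, z.2]
    have h2 : CommRingCat.ofHom (algebraMap k R) ≫ Spec.preimage ψ =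
        CommRingCat.ofHom (algebraMap k κ) := by
      apply Spec.map_injective
      rw [Spec.map_comp, Spec.map_preimage]
      exact h1
    intro a
    exact congrArg (fun f => f.hom a) h2
  let φ : R →ₐ[k] κ := { (Spec.preimage ψ).hom with commutes' := hcomm }
  have hφ : (specHomOver k φ).1 = ψ := Spec.map_preimage ψ
  have hz : postComp j' (specHomOver k φ) = z :=
    Subtype.ext (by show (specHomOver k φ).1 ≫ j = z.1; rw [hφ, hψ])
  have hb : baseChangeSnd c (specHomOver k φ) ≫ baseChangeSnd c j' = baseChangeSnd c z := by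
    rw [baseChangeSnd_comp, hz]
  exact hn κ φ L' (𝒟.congr hL' ⟨(pullbackObjIsoOfEq hb N).symm⟩ ⟨GluedModule.Iso.refl _⟩)

/-- `chi` of the fibres is constant along the geometric points landing in a given nonempty
affine open of an integral scheme. -/
theorem exists_chi_const_of_affineOpen (𝒟 : Dictionary c ε 𝒞) {T' : Scheme.{u}} [IsIntegral T']
    (t' : T' ⟶ Spec (CommRingCat.of k)) (N : (pullback c t').Modules)
    (hN : Scheme.Modules.IsInvertible N) (U : T'.Opens) (hU : IsAffineOpen U)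
    (hne : (U : Set T').Nonempty) :
    ∃ n : ℤ, ∀ (κ : Type u) [Field κ] [IsAlgClosed κ] [Algebra k κ]
      (z : SchemeHomOver (tR k κ) t'), Set.range z.1 ⊆ U → ∀ L' : GluedModule (𝒞.chart κ),
        𝒟.Corr κ ((Scheme.Modules.pullback (baseChangeSnd c z)).obj N) L' →
          GluedModule.chi L' = n := by
  have : Nonempty U := hne.to_subtype
  have : IsDomain Γ(T', U) := inferInstance
  obtain ⟨n, hn⟩ := exists_chi_const_of_affine 𝒟 t' N hN Γ(T', U) hU.fromSpec
  exact ⟨n, fun κ _ _ _ z hz L' hL' => hn κ z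
    (IsOpenImmersion.lift hU.fromSpec z.1 (by rw [hU.range_fromSpec]; exact hz))
    (IsOpenImmersion.lift_fac _ _ _) L' hL'⟩

omit [IsAlgClosed k] in
/-- There is a geometric point (with field in the same universe) over any point of a
`k`-scheme. -/
theorem exists_geometric_point {T' : Scheme.{u}} (t' : T' ⟶ Spec (CommRingCat.of k)) (y : T') :
    ∃ (Ω : Type u) (_ : Field Ω) (_ : IsAlgClosed Ω) (_ : Algebra k Ω)
      (z : SchemeHomOver (tR k Ω) t'), Set.range z.1 ⊆ {y} := by
  let Ω := AlgebraicClosure (T'.residueField y)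
  let z₀ : Spec (CommRingCat.of Ω) ⟶ T' :=
    Spec.map (CommRingCat.ofHom (algebraMap (T'.residueField y) Ω)) ≫ T'.fromSpecResidueField y
  refine ⟨Ω, inferInstance, inferInstance, algOfHom (z₀ ≫ t'), ⟨z₀, (tR_algOfHom _).symm⟩, ?_⟩
  rintro _ ⟨w, rfl⟩
  exact T'.fromSpecResidueField_apply y _

/-- **Constancy of the Euler characteristic in families.**  For an invertible module on
`C ×ₖ T'`, `T'` an integral `k`-scheme, the glued modules corresponding to the fibres at any two
geometric points of `T'` have the same Euler characteristic. -/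
theorem chi_eq_of_isIntegral (𝒟 : Dictionary c ε 𝒞) {T' : Scheme.{u}} [IsIntegral T']
    (t' : T' ⟶ Spec (CommRingCat.of k)) (N : (pullback c t').Modules)
    (hN : Scheme.Modules.IsInvertible N)
    {κ₀ κ₁ : Type u} [Field κ₀] [IsAlgClosed κ₀] [Algebra k κ₀] [Field κ₁] [IsAlgClosed κ₁]
    [Algebra k κ₁] (z₀ : SchemeHomOver (tR k κ₀) t') (z₁ : SchemeHomOver (tR k κ₁) t')
    (L₀ : GluedModule (𝒞.chart κ₀)) (L₁ : GluedModule (𝒞.chart κ₁))
    (h₀ : 𝒟.Corr κ₀ ((Scheme.Modules.pullback (baseChangeSnd c z₀)).obj N) L₀)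
    (h₁ : 𝒟.Corr κ₁ ((Scheme.Modules.pullback (baseChangeSnd c z₁)).obj N) L₁) :
    GluedModule.chi L₀ = GluedModule.chi L₁ := by
  obtain ⟨U₀, hU₀, hy₀, -⟩ :=
    exists_isAffineOpen_mem_and_subset (x := z₀.1 default) (U := ⊤) trivial
  obtain ⟨U₁, hU₁, hy₁, -⟩ :=
    exists_isAffineOpen_mem_and_subset (x := z₁.1 default) (U := ⊤) trivial
  have hr₀ : Set.range z₀.1 ⊆ U₀ := by
    rintro _ ⟨w, rfl⟩
    rwa [Subsingleton.elim w default]
  have hr₁ : Set.range z₁.1 ⊆ U₁ := by
    rintro _ ⟨w, rfl⟩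
    rwa [Subsingleton.elim w default]
  obtain ⟨y, hy0, hy1⟩ :=
    nonempty_preirreducible_inter U₀.isOpen U₁.isOpen ⟨_, hy₀⟩ ⟨_, hy₁⟩
  obtain ⟨Ω, _, _, _, z, hz⟩ := exists_geometric_point t' y
  obtain ⟨L, hL⟩ := 𝒟.exists_glued _ (hN.pullback (baseChangeSnd c z))
  obtain ⟨n₀, hn₀⟩ := exists_chi_const_of_affineOpen 𝒟 t' N hN U₀ hU₀ ⟨_, hy₀⟩
  obtain ⟨n₁, hn₁⟩ := exists_chi_const_of_affineOpen 𝒟 t' N hN U₁ hU₁ ⟨_, hy₁⟩
  rw [hn₀ κ₀ z₀ hr₀ L₀ h₀, hn₁ κ₁ z₁ hr₁ L₁ h₁,
    ← hn₀ Ω z (hz.trans (Set.singleton_subset_iff.mpr hy0)) L hL,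
    ← hn₁ Ω z (hz.trans (Set.singleton_subset_iff.mpr hy1)) L hL]

end scheme

/-! ### The pasting maps for the fibre over a geometric point -/

section pasting

attribute [local simp] pullback.lift_fst pullback.lift_snd pullback.lift_fst_assoc
  pullback.lift_snd_assoc pullback.map

variable {k : Type u} [Field k] {C : Scheme.{u}} (c : C ⟶ Spec (CommRingCat.of k))
  {T : Scheme.{u}} {t : T ⟶ Spec (CommRingCat.of k)} {κ : Type u} [Field κ]
  {σ : Spec (CommRingCat.of κ) ⟶ Spec (CommRingCat.of k)} (s : SchemeHomOver σ t)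

/-- The standard fibre `pullback c σ` maps to the fibre `pullback (pullback.snd c t) s` used by
the frozen definition. -/
def toFibre : pullback c σ ⟶ pullback (pullback.snd c t) s.1 :=
  pullback.lift (baseChangeSnd c s) (pullback.snd c σ) (by simp [baseChangeSnd])

theorem toFibre_fst : toFibre c s ≫ pullback.fst (pullback.snd c t) s.1 = baseChangeSnd c s := by
  simp [toFibre]

/-- The standard fibre maps to the trivial family over `Spec κ`. -/
def toPointFamily : pullback c σ ⟶ pullback (fibreAt c t s.1) (𝟙 (Spec (CommRingCat.of κ))) :=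
  pullback.lift (toFibre c s) (pullback.snd c σ) (by simp [fibreAt, toFibre])

theorem toPointFamily_fst :
    toPointFamily c s ≫ pullback.fst (fibreAt c t s.1) (𝟙 (Spec (CommRingCat.of κ))) =
      toFibre c s := by
  simp [toPointFamily]

variable {T' : Scheme.{u}} (h : T' ⟶ Spec (CommRingCat.of κ))

/-- `h ≫ s` as a morphism over `Spec k`. -/
def famOver : SchemeHomOver (h ≫ σ) t := ⟨h ≫ s.1, by rw [Category.assoc, s.2]⟩

/-- The family `C ×ₖ T'` (with `T'` over `k` through `κ`) maps to the family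
`(fibre over s) ×_κ T'` used by the frozen definition of algebraic equivalence. -/
def toFamily : pullback c (h ≫ σ) ⟶ pullback (fibreAt c t s.1) h :=
  pullback.lift
    (pullback.lift (baseChangeSnd c (famOver s h)) (pullback.snd c (h ≫ σ) ≫ h)
      (by simp [baseChangeSnd, famOver]))
    (pullback.snd c (h ≫ σ))
    (by simp [fibreAt])

/-- A section of `h : T' ⟶ Spec κ` as a point of `T'` over `Spec k`. -/
def ptOver (σ : Spec (CommRingCat.of κ) ⟶ Spec (CommRingCat.of k))
    (x : SchemeHomOver (𝟙 (Spec (CommRingCat.of κ))) h) : SchemeHomOver σ (h ≫ σ) :=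
  ⟨x.1, by rw [← Category.assoc, x.2, Category.id_comp]⟩

theorem baseChangeSnd_toFamily (x : SchemeHomOver (𝟙 (Spec (CommRingCat.of κ))) h) :
    baseChangeSnd c (ptOver h σ x) ≫ toFamily c s h =
      toPointFamily c s ≫ baseChangeSnd (fibreAt c t s.1) x := by
  have hx : x.1 ≫ h = 𝟙 _ := x.2
  apply pullback.hom_ext
  · apply pullback.hom_ext
    · apply pullback.hom_ext
      · simp [toFamily, toPointFamily, baseChangeSnd, ptOver, toFibre, famOver]
      · simp [toFamily, toPointFamily, baseChangeSnd, ptOver, toFibre, famOver, reassoc_of% hx]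
    · simp [toFamily, toPointFamily, baseChangeSnd, ptOver, toFibre, famOver, hx]
  · simp [toFamily, toPointFamily, baseChangeSnd, ptOver]

end pasting

/-! ### The direction `FibrewiseAlgEquivZero ⇒ IsDeg0` -/

section forward

variable {k : Type u} [Field k] [IsAlgClosed k] {C : Scheme.{u}}
  {c : C ⟶ Spec (CommRingCat.of k)} {ε : SchemeHomOver (𝟙 (Spec (CommRingCat.of k))) c}
  {𝒞 : CurveData k}

/-- Rigidified line bundles whose geometric fibres are algebraically equivalent to zero are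
fibrewise of degree zero. -/
theorem isDeg0_of_fibrewiseAlgEquivZero (𝒟 : Dictionary c ε 𝒞) {T : Scheme.{u}}
    (t : T ⟶ Spec (CommRingCat.of k)) (M : RigidifiedLineBundle c ε t)
    (hM : FibrewiseAlgEquivZero M) : IsDeg0 𝒟 t M := by
  intro κ _ _ _ s N hN
  obtain ⟨T', h, hft, hgi, F, hF, x₀, x₁, ⟨e₀⟩, ⟨e₁⟩⟩ := hM κ s.1
  have : IsIntegral T' := GeometricallyIntegral.isIntegral_of_subsingleton h
  have h0 : 𝒟.Corr κ ((Scheme.Modules.pullback (baseChangeSnd c (ptOver h (tR k κ) x₀))).obj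
      ((Scheme.Modules.pullback (toFamily c s h)).obj F)) (GluedModule.unit (𝒞.chart κ)) :=
    𝒟.congr (𝒟.unit κ)
      ⟨(pullbackObjIsoOfComp (baseChangeSnd_toFamily c s h x₀) F ≪≫
        (Scheme.Modules.pullback _).mapIso e₀ ≪≫ Scheme.Modules.pullbackUnitIso _).symm⟩
      ⟨GluedModule.Iso.refl _⟩
  have h1 : 𝒟.Corr κ ((Scheme.Modules.pullback (baseChangeSnd c (ptOver h (tR k κ) x₁))).obj
      ((Scheme.Modules.pullback (toFamily c s h)).obj F)) N :=
    𝒟.congr hN
      ⟨(pullbackObjIsoOfComp (baseChangeSnd_toFamily c s h x₁) F ≪≫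
        (Scheme.Modules.pullback _).mapIso e₁ ≪≫
        pullbackObjIsoOfEq (toPointFamily_fst c s) _ ≪≫
        pullbackObjIsoOfEq (toFibre_fst c s) M.L).symm⟩
      ⟨GluedModule.Iso.refl _⟩
  exact (chi_eq_of_isIntegral 𝒟 (h ≫ tR k κ) _ (hF.pullback _) _ _ _ _ h0 h1).symm

end forward

end

end Fermat.Agent.S25.ALGEQ
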